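import Mathlib

/-!
# Local rings of a smooth curve over an algebraically closed field are DVRs (algebra core)

Block CURVE, leaf C1 (algebra): let `k` be algebraically closed and `B` a standard smooth
`k`-algebra of relative dimension `1` which is a domain.  Then the localisation of `B` at every
maximal ideal is a discrete valuation ring; consequently `B` is a Dedekind domain and not a field.

Proof: for a maximal ideal `m` the residue field is `k` (Nullstellensatz), so `B/m² → B/m` has a
`k`-algebra section, hence `m/m² → (B/m) ⊗ Ω[B/k]` is injective; the target is generated by one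
element because `Ω[B/k]` is free of rank one.  Nakayama then shows that `m B_m` is principal.
-/

set_option autoImplicit false

open TensorProduct

namespace Fermat.Agent.S25.H207

section

variable (k : Type*) {B : Type*} [Field k] [IsAlgClosed k] [CommRing B] [Algebra k B]

/-- Nullstellensatz: the residue field of a finite type `k`-algebra at a maximal ideal is `k`. -/
theorem algebraMap_quotient_bijective [Algebra.FiniteType k B] (m : Ideal B) [hm : m.IsMaximal] :
    Function.Bijective (algebraMap k (B ⧸ m)) := by
  let _ := Ideal.Quotient.field m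
  have hfin : Module.Finite k (B ⧸ m) := finite_of_finite_type_of_isJacobsonRing k (B ⧸ m)
  exact IsAlgClosed.algebraMap_bijective_of_isIntegral

/-- `m/m² → (B/m) ⊗ Ω[B/k]` is injective for a maximal ideal `m` of a finite type algebra over an
algebraically closed field. -/
theorem kerCotangentToTensor_injective [Algebra.FiniteType k B] (m : Ideal B) [hm : m.IsMaximal] :
    Function.Injective (KaehlerDifferential.kerCotangentToTensor k B (B ⧸ m)) := by
  have hbij := algebraMap_quotient_bijective k m
  have hsurj : Function.Surjective (algebraMap B (B ⧸ m)) := Ideal.Quotient.mk_surjective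
  let e : k ≃ₐ[k] (B ⧸ m) := AlgEquiv.ofBijective (Algebra.ofId k (B ⧸ m)) hbij
  let g : (B ⧸ m) →ₐ[k] B ⧸ (RingHom.ker (IsScalarTower.toAlgHom k B (B ⧸ m)).toRingHom ^ 2) :=
    (Algebra.ofId k _).comp (e.symm : (B ⧸ m) →ₐ[k] k)
  have hg : (IsScalarTower.toAlgHom k B (B ⧸ m)).kerSquareLift.comp g = AlgHom.id k (B ⧸ m) := by
    ext x
    obtain ⟨y, rfl⟩ := e.surjective x
    simp only [g, AlgHom.comp_apply, AlgHom.id_apply]
    rw [Algebra.ofId_apply, AlgHom.commutes]
    have h1 : ((e.symm : (B ⧸ m) →ₐ[k] k) (e y)) = y := e.symm_apply_apply y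
    rw [h1]
    rfl
  obtain ⟨l, hl⟩ := (retractionKerCotangentToTensorEquivSection (R := k) hsurj).symm ⟨g, hg⟩
  intro x y hxy
  have := congrArg l hxy
  rw [← LinearMap.comp_apply, ← LinearMap.comp_apply, hl] at this
  exact this

end

section


/-- `(B/m) ⊗ Ω[B/k]` is generated by one element. -/
theorem exists_generator_tensor_kaehler (k : Type*) {B : Type*} [Field k] [IsAlgClosed k]
    [CommRing B] [IsDomain B] [Algebra k B] [Algebra.IsStandardSmoothOfRelativeDimension 1 k B]
    (m : Ideal B) :
    ∃ w₀ : (B ⧸ m) ⊗[B] Ω[B⁄k], ∀ w : (B ⧸ m) ⊗[B] Ω[B⁄k], ∃ c : B, c • w₀ = w := by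
  have hss : Algebra.IsStandardSmooth k B :=
    Algebra.IsStandardSmoothOfRelativeDimension.isStandardSmooth 1
  have hfree : Module.Free B Ω[B⁄k] := Algebra.IsStandardSmooth.free_kaehlerDifferential
  have hrank : Module.rank B Ω[B⁄k] = 1 := by
    have := Algebra.IsStandardSmoothOfRelativeDimension.rank_kaehlerDifferential (R := k) (S := B) 1
    simpa using this
  obtain ⟨ω₀, -, hω₀⟩ := rank_eq_one_iff.mp hrank
  refine ⟨(1 : B ⧸ m) ⊗ₜ[B] ω₀, ?_⟩
  intro w
  induction w using TensorProduct.induction_on with
  | zero => exact ⟨0, by simp⟩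
  | tmul a ω =>
    obtain ⟨a', rfl⟩ := Ideal.Quotient.mk_surjective a
    obtain ⟨r, rfl⟩ := hω₀ ω
    refine ⟨a' * r, ?_⟩
    rw [TensorProduct.tmul_smul, TensorProduct.smul_tmul', mul_smul, TensorProduct.smul_tmul']
    congr 1
    rw [Algebra.smul_def, Algebra.smul_def, Algebra.smul_def, mul_one, mul_comm]
    rfl
  | add x y hx hy =>
    obtain ⟨c, hc⟩ := hx
    obtain ⟨d, hd⟩ := hy
    exact ⟨c + d, by rw [add_smul, hc, hd]⟩

/-- The cotangent space `m/m²` at a maximal ideal is generated by one element: there is `t ∈ m`
with `m ≤ (t) + m²`. -/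
theorem exists_le_span_sup_sq (k : Type*) {B : Type*} [Field k] [IsAlgClosed k]
    [CommRing B] [IsDomain B] [Algebra k B] [Algebra.IsStandardSmoothOfRelativeDimension 1 k B]
    (m : Ideal B) [hm : m.IsMaximal] :
    ∃ t ∈ m, m ≤ Ideal.span {t} ⊔ m ^ 2 := by
  classical
  have hft : Algebra.FiniteType k B :=
    have : Algebra.IsStandardSmooth k B :=
      Algebra.IsStandardSmoothOfRelativeDimension.isStandardSmooth 1
    inferInstance
  have hker : RingHom.ker (algebraMap B (B ⧸ m)) = m := Ideal.mk_ker
  set I := RingHom.ker (algebraMap B (B ⧸ m)) with hI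
  have hinj : Function.Injective (KaehlerDifferential.kerCotangentToTensor k B (B ⧸ m)) :=
    kerCotangentToTensor_injective k m
  obtain ⟨w₀, hw₀⟩ := exists_generator_tensor_kaehler k m
  -- the cotangent space is cyclic
  have hcyc : ∃ u₀ : I.Cotangent, ∀ v : I.Cotangent, ∃ c : B, c • u₀ = v := by
    by_cases hall : ∀ v : I.Cotangent, v = 0
    · exact ⟨0, fun v => ⟨0, by rw [hall v]; simp⟩⟩
    · push Not at hall
      obtain ⟨u, hu⟩ := hall
      refine ⟨u, fun v => ?_⟩
      set φ := KaehlerDifferential.kerCotangentToTensor k B (B ⧸ m) with hφ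
      obtain ⟨a, ha⟩ := hw₀ (φ u)
      obtain ⟨b, hb⟩ := hw₀ (φ v)
      -- `a ∉ m`, since otherwise `φ u = 0`
      have ha_notin : a ∉ m := by
        intro ham
        apply hu
        apply hinj
        rw [map_zero, ← ha]
        -- `a • w₀ = 0` since `a` kills `(B/m) ⊗ _`
        have : ∀ w : (B ⧸ m) ⊗[B] Ω[B⁄k], a • w = 0 := by
          intro w
          induction w using TensorProduct.induction_on with
          | zero => simp
          | tmul x y =>
            rw [TensorProduct.smul_tmul']
            have : a • x = 0 := by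
              rw [Algebra.smul_def]
              have : algebraMap B (B ⧸ m) a = 0 := Ideal.Quotient.eq_zero_iff_mem.mpr ham
              rw [this, zero_mul]
            rw [this, TensorProduct.zero_tmul]
          | add x y hx hy => rw [smul_add, hx, hy, add_zero]
        exact this w₀
      -- invert `a` modulo `m`
      obtain ⟨a', ha'⟩ : ∃ a' : B, a' * a - 1 ∈ m := by
        have hmax := hm
        obtain ⟨y, hy⟩ := Ideal.IsMaximal.exists_inv hm ha_notin
        obtain ⟨i, hi, hyi⟩ := hy
        refine ⟨y, ?_⟩
        have : y * a - 1 = -i := by linear_combination hyi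
        rw [this]
        exact neg_mem hi
      refine ⟨b * a', ?_⟩
      apply hinj
      rw [map_smul, ← ha, ← hb, smul_smul]
      -- `(b a' a) • w₀ = b • w₀` since `a' a ≡ 1 mod m`
      have hkill : ∀ (z : B), z ∈ m → ∀ w : (B ⧸ m) ⊗[B] Ω[B⁄k], z • w = 0 := by
        intro z hz w
        induction w using TensorProduct.induction_on with
        | zero => simp
        | tmul x y =>
          rw [TensorProduct.smul_tmul']
          have : z • x = 0 := by
            rw [Algebra.smul_def]
            have : algebraMap B (B ⧸ m) z = 0 := Ideal.Quotient.eq_zero_iff_mem.mpr hz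
            rw [this, zero_mul]
          rw [this, TensorProduct.zero_tmul]
        | add x y hx hy => rw [smul_add, hx, hy, add_zero]
      have h1 : (b * a' * a) • w₀ = b • w₀ + (b * (a' * a - 1)) • w₀ := by
        rw [← add_smul]
        congr 1
        ring
      rw [h1, hkill _ (Ideal.mul_mem_left _ _ ha'), add_zero]
  obtain ⟨u₀, hu₀⟩ := hcyc
  obtain ⟨t, rfl⟩ := I.toCotangent_surjective u₀
  refine ⟨t.1, hker ▸ t.2, ?_⟩
  intro x hx
  have hxI : x ∈ I := hker.symm ▸ hx
  obtain ⟨c, hc⟩ := hu₀ (I.toCotangent ⟨x, hxI⟩)
  rw [← map_smul] at hc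
  have h2 := (Ideal.toCotangent_eq I).mp hc
  have h3 : x = c * t.1 - ((c • t : I).1 - x) := by
    simp
  rw [h3]
  refine sub_mem (Ideal.mem_sup_left (Ideal.mem_span_singleton'.mpr ⟨c, rfl⟩)) ?_
  refine Ideal.mem_sup_right ?_
  have : m ^ 2 = I ^ 2 := by rw [hker]
  rw [this]
  exact h2

/-- A maximal ideal of `B` is nonzero. -/
theorem maximal_ne_bot_of_standardSmooth (k : Type*) {B : Type*} [Field k] [IsAlgClosed k]
    [CommRing B] [IsDomain B] [Algebra k B] [Algebra.IsStandardSmoothOfRelativeDimension 1 k B]
    (m : Ideal B) [hm : m.IsMaximal] : m ≠ ⊥ := by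
  have hss : Algebra.IsStandardSmooth k B :=
    Algebra.IsStandardSmoothOfRelativeDimension.isStandardSmooth 1
  have hft : Algebra.FiniteType k B := inferInstance
  intro h0
  -- `m = ⊥`, so `k → B` is surjective and `Ω = 0`
  have hbij := algebraMap_quotient_bijective k m
  have hsurj : Function.Surjective (algebraMap k B) := by
    intro b
    obtain ⟨c, hc⟩ := hbij.2 (Ideal.Quotient.mk m b)
    refine ⟨c, ?_⟩
    have h1 : Ideal.Quotient.mk m (algebraMap k B c) = Ideal.Quotient.mk m b := by
      rw [← hc]; rfl
    have h2 := (Ideal.Quotient.eq).mp h1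
    rw [h0, Ideal.mem_bot, sub_eq_zero] at h2
    exact h2
  have hsub : Subsingleton Ω[B⁄k] := KaehlerDifferential.subsingleton_of_surjective k B hsurj
  have hrank : Module.rank B Ω[B⁄k] = 1 := by
    have := Algebra.IsStandardSmoothOfRelativeDimension.rank_kaehlerDifferential
      (R := k) (S := B) 1
    simpa using this
  rw [rank_subsingleton'] at hrank
  exact zero_ne_one hrank

/-- `B` is not a field. -/
theorem not_isField_of_standardSmooth (k : Type*) {B : Type*} [Field k] [IsAlgClosed k]
    [CommRing B] [IsDomain B] [Algebra k B] [Algebra.IsStandardSmoothOfRelativeDimension 1 k B] :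
    ¬ IsField B := by
  intro hf
  have hm : (⊥ : Ideal B).IsMaximal := by
    letI := hf.toField
    exact Ideal.bot_isMaximal
  exact maximal_ne_bot_of_standardSmooth k (⊥ : Ideal B) rfl

/-- **The localisation of a standard smooth (relative dimension one) domain over an algebraically
closed field at a maximal ideal is a discrete valuation ring.** -/
theorem isDiscreteValuationRing_of_isLocalization (k : Type*) {B : Type*} [Field k]
    [IsAlgClosed k] [CommRing B] [IsDomain B] [Algebra k B]
    [Algebra.IsStandardSmoothOfRelativeDimension 1 k B]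
    (m : Ideal B) [hm : m.IsMaximal]
    (R : Type*) [CommRing R] [IsDomain R] [Algebra B R] [IsLocalization.AtPrime R m] :
    IsDiscreteValuationRing R := by
  have hss : Algebra.IsStandardSmooth k B :=
    Algebra.IsStandardSmoothOfRelativeDimension.isStandardSmooth 1
  have hft : Algebra.FiniteType k B := inferInstance
  have hBn : IsNoetherianRing B := Algebra.FiniteType.isNoetherianRing k B
  have hRn : IsNoetherianRing R := IsLocalization.isNoetherianRing m.primeCompl R hBn
  have hRl : IsLocalRing R := IsLocalization.AtPrime.isLocalRing R m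
  have hinjBR : Function.Injective (algebraMap B R) :=
    IsLocalization.injective R (Ideal.primeCompl_le_nonZeroDivisors m)
  have hmax : Ideal.map (algebraMap B R) m = IsLocalRing.maximalIdeal R :=
    IsLocalization.AtPrime.map_eq_maximalIdeal m R
  -- not a field
  have hnf : ¬ IsField R := by
    intro hf
    have h0 : IsLocalRing.maximalIdeal R = ⊥ := IsLocalRing.isField_iff_maximalIdeal_eq.mp hf
    rw [← hmax, Ideal.map_eq_bot_iff_of_injective hinjBR] at h0
    exact maximal_ne_bot_of_standardSmooth k m h0
  -- principal maximal ideal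
  obtain ⟨t, htm, hle⟩ := exists_le_span_sup_sq k m
  have hprinc : (IsLocalRing.maximalIdeal R).IsPrincipal := by
    refine ⟨⟨algebraMap B R t, ?_⟩⟩
    apply le_antisymm
    · have hfg : (IsLocalRing.maximalIdeal R).FG := (isNoetherianRing_iff_ideal_fg R).mp hRn _
      have h1 : IsLocalRing.maximalIdeal R ≤
          Ideal.span {algebraMap B R t} ⊔
            (IsLocalRing.maximalIdeal R) • (IsLocalRing.maximalIdeal R) := by
        rw [← hmax]
        have := Ideal.map_mono (f := algebraMap B R) hle
        rw [Ideal.map_sup, Ideal.map_span, Set.image_singleton, Ideal.map_pow, pow_two] at this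
        exact this
      exact Submodule.le_of_le_smul_of_le_jacobson_bot hfg
        (IsLocalRing.maximalIdeal_le_jacobson ⊥) h1
    · rw [Ideal.submodule_span_eq, Ideal.span_le, Set.singleton_subset_iff, ← hmax]
      exact Ideal.mem_map_of_mem _ htm
  exact ((IsDiscreteValuationRing.TFAE R hnf).out 0 4).mpr hprinc

/-- **`B` is a Dedekind domain.** -/
theorem isDedekindDomain_of_standardSmooth (k : Type*) {B : Type*} [Field k] [IsAlgClosed k]
    [CommRing B] [IsDomain B] [Algebra k B] [Algebra.IsStandardSmoothOfRelativeDimension 1 k B] :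
    IsDedekindDomain B := by
  have hss : Algebra.IsStandardSmooth k B :=
    Algebra.IsStandardSmoothOfRelativeDimension.isStandardSmooth 1
  have hft : Algebra.FiniteType k B := inferInstance
  have hBn : IsNoetherianRing B := Algebra.FiniteType.isNoetherianRing k B
  have hdvr : IsDedekindDomainDvr B := by
    refine @IsDedekindDomainDvr.mk _ _ _ hBn ?_
    intro P hP0 hPprime
    -- `P` is maximal: choose a maximal `m ⊇ P`; `B_m` is a DVR so `P B_m = m B_m`
    obtain ⟨m, hm, hPm⟩ := Ideal.exists_le_maximal P hPprime.ne_top
    have hdvr_m : IsDiscreteValuationRing (Localization.AtPrime m) :=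
      isDiscreteValuationRing_of_isLocalization k m _
    have hPeq : P = m := by
      -- the prime `P B_m` of the DVR `B_m` is nonzero, hence maximal
      have hdisj : Disjoint (m.primeCompl : Set B) (P : Set B) := by
        rw [Set.disjoint_left]
        intro x hx hxP
        exact hx (hPm hxP)
      have hPmap_prime : (Ideal.map (algebraMap B (Localization.AtPrime m)) P).IsPrime :=
        IsLocalization.isPrime_of_isPrime_disjoint m.primeCompl _ P hPprime hdisj
      have hPmap_ne : Ideal.map (algebraMap B (Localization.AtPrime m)) P ≠ ⊥ := by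
        rw [Ne, Ideal.map_eq_bot_iff_of_injective
          (IsLocalization.injective _ (Ideal.primeCompl_le_nonZeroDivisors m))]
        exact hP0
      have hmaxl : (Ideal.map (algebraMap B (Localization.AtPrime m)) P).IsMaximal :=
        hPmap_prime.isMaximal hPmap_ne
      have heq : Ideal.map (algebraMap B (Localization.AtPrime m)) P
          = IsLocalRing.maximalIdeal (Localization.AtPrime m) :=
        IsLocalRing.eq_maximalIdeal hmaxl
      rw [← Localization.AtPrime.map_eq_maximalIdeal] at heq
      have hcomapP := IsLocalization.under_map_of_isPrime_disjoint m.primeCompl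
        (Localization.AtPrime m) hPprime hdisj
      have hcomapm := IsLocalization.under_map_of_isPrime_disjoint m.primeCompl
        (Localization.AtPrime m) hm.isPrime (by
          rw [Set.disjoint_left]; intro x hx hxm; exact hx hxm)
      rw [← hcomapP, heq, hcomapm]
    subst hPeq
    exact isDiscreteValuationRing_of_isLocalization k P _
  exact IsDedekindDomainDvr.isDedekindDomain B

end

end Fermat.Agent.S25.H207
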