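import Mathlib
import Fermat.Agent.S25.H207.SmoothDVR

/-!
# Block CURVE, leaf A2: locally standard smooth of relative dimension one ⇒ Dedekind

A finitely generated domain over an algebraically closed field which is locally standard smooth
of relative dimension `1` is a Dedekind domain and not a field.  (Same statements as the frozen
skeleton `Fermat/Agent/S25/Curve/Alg/Dedekind.lean` of the squad board.)
-/

set_option autoImplicit false

universe u

open TensorProduct

namespace Fermat.Agent.S25.H207

/-- A noetherian domain all of whose localisations at maximal ideals are discrete valuation rings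
is a Dedekind domain. -/
theorem isDedekindDomain_of_forall_maximal_dvr {B : Type*} [CommRing B] [IsDomain B]
    [hBn : IsNoetherianRing B]
    (h : ∀ (m : Ideal B) [m.IsMaximal], IsDiscreteValuationRing (Localization.AtPrime m)) :
    IsDedekindDomain B := by
  have hdvr : IsDedekindDomainDvr B := by
    refine @IsDedekindDomainDvr.mk _ _ _ hBn ?_
    intro P hP0 hPprime
    -- `P` is maximal: choose a maximal `m ⊇ P`; `B_m` is a DVR so `P B_m = m B_m`
    obtain ⟨m, hm, hPm⟩ := Ideal.exists_le_maximal P hPprime.ne_top
    have hdvr_m : IsDiscreteValuationRing (Localization.AtPrime m) := h m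
    have hPeq : P = m := by
      -- the prime `P B_m` of the DVR `B_m` is nonzero, hence maximal
      have hdisj : Disjoint (m.primeCompl : Set B) (P : Set B) := by
        rw [Set.disjoint_left]
        intro x hx hxP
        exact hx (hPm hxP)
      have hPmap_prime : (Ideal.map (algebraMap B (Localization.AtPrime m)) P).IsPrime :=
        IsLocalization.isPrime_of_isPrime_disjoint m.primeCompl _ P hPprime hdisj
      have hPmap_ne : Ideal.map (algebraMap B (Localization.AtPrime m)) P ≠ ⊥ := by
        rw [Ne, Ideal.map_eq_bot_iff_of_injective
          (IsLocalization.injective _ (Ideal.primeCompl_le_nonZeroDivisors m))]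
        exact hP0
      have hmaxl : (Ideal.map (algebraMap B (Localization.AtPrime m)) P).IsMaximal :=
        hPmap_prime.isMaximal hPmap_ne
      have heq : Ideal.map (algebraMap B (Localization.AtPrime m)) P
          = IsLocalRing.maximalIdeal (Localization.AtPrime m) :=
        IsLocalRing.eq_maximalIdeal hmaxl
      rw [← Localization.AtPrime.map_eq_maximalIdeal] at heq
      have hcomapP := IsLocalization.under_map_of_isPrime_disjoint m.primeCompl
        (Localization.AtPrime m) hPprime hdisj
      have hcomapm := IsLocalization.under_map_of_isPrime_disjoint m.primeCompl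
        (Localization.AtPrime m) hm.isPrime (by
          rw [Set.disjoint_left]; intro x hx hxm; exact hx hxm)
      rw [← hcomapP, heq, hcomapm]
    subst hPeq
    exact h P
  exact IsDedekindDomainDvr.isDedekindDomain B

/-- The extension of a maximal ideal `m` to the localisation away from `t ∉ m` is maximal. -/
theorem isMaximal_map_away {B : Type*} [CommRing B] (m : Ideal B) [hm : m.IsMaximal] (t : B)
    (ht : t ∉ m) (Bt : Type*) [CommRing Bt] [Algebra B Bt] [IsLocalization.Away t Bt] :
    (Ideal.map (algebraMap B Bt) m).IsMaximal ∧
      Ideal.comap (algebraMap B Bt) (Ideal.map (algebraMap B Bt) m) = m := by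
  have hdisj : Disjoint ((Submonoid.powers t : Submonoid B) : Set B) (m : Set B) := by
    rw [Set.disjoint_left]
    rintro x ⟨n, rfl⟩ hx
    exact ht (hm.isPrime.mem_of_pow_mem n hx)
  have hprime : (Ideal.map (algebraMap B Bt) m).IsPrime :=
    IsLocalization.isPrime_of_isPrime_disjoint (Submonoid.powers t) Bt m hm.isPrime hdisj
  have hcomap : Ideal.comap (algebraMap B Bt) (Ideal.map (algebraMap B Bt) m) = m :=
    IsLocalization.under_map_of_isPrime_disjoint (Submonoid.powers t) Bt hm.isPrime hdisj
  refine ⟨?_, hcomap⟩
  obtain ⟨M, hM, hle⟩ := Ideal.exists_le_maximal _ hprime.ne_top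
  have h1 : m ≤ Ideal.comap (algebraMap B Bt) M := by
    rw [← hcomap]
    exact Ideal.comap_mono hle
  have h2 : Ideal.comap (algebraMap B Bt) M ≠ ⊤ :=
    (Ideal.comap_isPrime (algebraMap B Bt) M).ne_top
  have h3 : m = Ideal.comap (algebraMap B Bt) M := hm.eq_of_le h2 h1
  have h4 : Ideal.map (algebraMap B Bt) m = M := by
    rw [h3]
    exact IsLocalization.map_under (Submonoid.powers t) Bt M
  rw [h4]
  exact hM

section Locally

variable {k B : Type u} [Field k] [IsAlgClosed k] [CommRing B] [IsDomain B] [Algebra k B]

/-- Key local statement: for a maximal ideal `m` and `t ∉ m` such that `B_t` is standard smooth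
of relative dimension one over `k`, the local ring `B_m` is a DVR and `m ≠ 0`. -/
theorem dvr_and_ne_bot_of_away (m : Ideal B) [hm : m.IsMaximal] (t : B) (ht : t ∉ m)
    (hP : RingHom.IsStandardSmoothOfRelativeDimension 1
      ((algebraMap B (Localization.Away t)).comp (algebraMap k B))) :
    IsDiscreteValuationRing (Localization.AtPrime m) ∧ m ≠ ⊥ := by
  have ht0 : t ≠ 0 := fun h => ht (h ▸ m.zero_mem)
  haveI hdom : IsDomain (Localization.Away t) :=
    IsLocalization.isDomain_of_le_nonZeroDivisors (Localization.Away t)
      (powers_le_nonZeroDivisors_of_noZeroDivisors ht0)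
  letI algk : Algebra k (Localization.Away t) :=
    ((algebraMap B (Localization.Away t)).comp (algebraMap k B)).toAlgebra
  haveI hss : Algebra.IsStandardSmoothOfRelativeDimension 1 k (Localization.Away t) := hP
  obtain ⟨hmax, hcomap⟩ := isMaximal_map_away m t ht (Localization.Away t)
  haveI := hmax
  haveI hprime : (Ideal.map (algebraMap B (Localization.Away t)) m).IsPrime := hmax.isPrime
  constructor
  · -- `T`, the localisation of `B_t` at `m B_t`, is a DVR and a localisation of `B` at `m`
    have hT : IsDiscreteValuationRing
        (Localization.AtPrime (Ideal.map (algebraMap B (Localization.Away t)) m)) :=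
      isDiscreteValuationRing_of_isLocalization k
        (Ideal.map (algebraMap B (Localization.Away t)) m) _
    have hloc : IsLocalization.AtPrime
        (Localization.AtPrime (Ideal.map (algebraMap B (Localization.Away t)) m))
        (Ideal.comap (algebraMap B (Localization.Away t))
          (Ideal.map (algebraMap B (Localization.Away t)) m)) :=
      IsLocalization.isLocalization_isLocalization_atPrime_isLocalization (Submonoid.powers t)
        _ (Ideal.map (algebraMap B (Localization.Away t)) m)
    have hloc' : IsLocalization m.primeCompl
        (Localization.AtPrime (Ideal.map (algebraMap B (Localization.Away t)) m)) := by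
      have h := hloc
      unfold IsLocalization.AtPrime at h
      have hpc : (Ideal.comap (algebraMap B (Localization.Away t))
          (Ideal.map (algebraMap B (Localization.Away t)) m)).primeCompl = m.primeCompl := by
        ext x
        simp only [Ideal.mem_primeCompl_iff]
        rw [hcomap]
      rw [hpc] at h
      exact h
    let e : (Localization.AtPrime (Ideal.map (algebraMap B (Localization.Away t)) m))
        ≃ₐ[B] Localization.AtPrime m :=
      IsLocalization.algEquiv m.primeCompl _ _
    exact IsDiscreteValuationRing.RingEquivClass.isDiscreteValuationRing e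
  · intro h0
    apply maximal_ne_bot_of_standardSmooth k (Ideal.map (algebraMap B (Localization.Away t)) m)
    rw [h0, Ideal.map_bot]

omit [IsAlgClosed k] [IsDomain B] in
/-- Under the `Locally` hypothesis every maximal ideal avoids some element of the cover. -/
theorem exists_notMem_of_locally
    (h : RingHom.Locally (RingHom.IsStandardSmoothOfRelativeDimension 1) (algebraMap k B))
    (m : Ideal B) [hm : m.IsMaximal] :
    ∃ t : B, t ∉ m ∧ RingHom.IsStandardSmoothOfRelativeDimension 1
      ((algebraMap B (Localization.Away t)).comp (algebraMap k B)) := by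
  obtain ⟨s, hs, hP⟩ := h
  by_contra hcon
  push Not at hcon
  have hsub : s ⊆ (m : Set B) := by
    intro t hts
    by_contra htm
    exact hcon t htm (hP t hts)
  have : Ideal.span s ≤ m := Ideal.span_le.mpr hsub
  rw [hs] at this
  exact hm.ne_top (top_le_iff.mp this)

/-- Localisations at maximal ideals are DVRs. -/
theorem isDiscreteValuationRing_localization_of_locally
    (h : RingHom.Locally (RingHom.IsStandardSmoothOfRelativeDimension 1) (algebraMap k B))
    (m : Ideal B) [hm : m.IsMaximal] : IsDiscreteValuationRing (Localization.AtPrime m) := by
  obtain ⟨t, ht, hP⟩ := exists_notMem_of_locally h m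
  exact (dvr_and_ne_bot_of_away m t ht hP).1

/-- Maximal ideals are nonzero. -/
theorem maximal_ne_bot_of_locally
    (h : RingHom.Locally (RingHom.IsStandardSmoothOfRelativeDimension 1) (algebraMap k B))
    (m : Ideal B) [hm : m.IsMaximal] : m ≠ ⊥ := by
  obtain ⟨t, ht, hP⟩ := exists_notMem_of_locally h m
  exact (dvr_and_ne_bot_of_away m t ht hP).2

end Locally

/-- **A2a.** (frozen statement of the squad skeleton `Curve/Alg/Dedekind.lean`) -/
theorem isDedekindDomain_of_locally_isStandardSmooth {k B : Type u} [Field k] [IsAlgClosed k]
    [CommRing B] [IsDomain B] [Algebra k B] [Algebra.FiniteType k B]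
    (h : RingHom.Locally (RingHom.IsStandardSmoothOfRelativeDimension 1) (algebraMap k B)) :
    IsDedekindDomain B := by
  haveI hBn : IsNoetherianRing B := Algebra.FiniteType.isNoetherianRing k B
  exact isDedekindDomain_of_forall_maximal_dvr
    (fun m _ => isDiscreteValuationRing_localization_of_locally h m)

/-- **A2b.** (frozen statement of the squad skeleton `Curve/Alg/Dedekind.lean`) -/
theorem not_isField_of_locally_isStandardSmooth {k B : Type u} [Field k] [IsAlgClosed k]
    [CommRing B] [IsDomain B] [Algebra k B] [Algebra.FiniteType k B]
    (h : RingHom.Locally (RingHom.IsStandardSmoothOfRelativeDimension 1) (algebraMap k B)) :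
    ¬ IsField B := by
  intro hf
  have hm : (⊥ : Ideal B).IsMaximal := by
    letI := hf.toField
    exact Ideal.bot_isMaximal
  exact maximal_ne_bot_of_locally h (⊥ : Ideal B) rfl

end Fermat.Agent.S25.H207
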