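import Mathlib

/-!
# Tensor products of domains over an algebraically closed field are domains

Block CURVE, leaf C2 (pure algebra): if `k` is algebraically closed and `A`, `B` are `k`-algebras
which are domains, then `A ⊗[k] B` is a domain.  In particular `K ⊗[k] Γ(C, U)` is a domain for
every field extension `K / k`.
-/

set_option autoImplicit false

open TensorProduct

namespace Fermat.Agent.S25.H207

/-- Weak Nullstellensatz: a nonzero element of a reduced finite type algebra over an
algebraically closed field is nonzero at some `k`-point. -/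
theorem exists_algHom_ne_zero {k A : Type*} [Field k] [IsAlgClosed k] [CommRing A] [Algebra k A]
    [Algebra.FiniteType k A] [IsReduced A] {a : A} (ha : a ≠ 0) :
    ∃ φ : A →ₐ[k] k, φ a ≠ 0 := by
  have hJ : IsJacobsonRing A := isJacobsonRing_of_finiteType (A := k)
  have hrad : (⊥ : Ideal A).IsRadical := by
    intro x hx
    obtain ⟨n, hn⟩ := hx
    rw [Ideal.mem_bot] at hn ⊢
    exact IsReduced.eq_zero _ ⟨n, hn⟩
  have hjac : (⊥ : Ideal A).jacobson = ⊥ := hJ.out hrad
  have hnot : a ∉ (⊥ : Ideal A).jacobson := by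
    rw [hjac, Ideal.mem_bot]; exact ha
  rw [Ideal.jacobson, Ideal.mem_sInf] at hnot
  push Not at hnot
  obtain ⟨m, ⟨-, hm⟩, ham⟩ := hnot
  let _ := Ideal.Quotient.field m
  have hfin : Module.Finite k (A ⧸ m) := finite_of_finite_type_of_isJacobsonRing k (A ⧸ m)
  have hbij : Function.Bijective (algebraMap k (A ⧸ m)) :=
    IsAlgClosed.algebraMap_bijective_of_isIntegral
  let e : k ≃ₐ[k] (A ⧸ m) := AlgEquiv.ofBijective (Algebra.ofId k (A ⧸ m)) hbij
  refine ⟨(e.symm : (A ⧸ m) →ₐ[k] k).comp (Ideal.Quotient.mkₐ k m), ?_⟩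
  intro h
  apply ham
  have h2 : e.symm (Ideal.Quotient.mkₐ k m a) = 0 := h
  have h3 : Ideal.Quotient.mkₐ k m a = 0 := by
    have := congrArg e h2
    simpa using this
  exact Ideal.Quotient.eq_zero_iff_mem.mp h3

section

variable {k A B : Type*} [Field k] [CommRing A] [Algebra k A] [CommRing B] [Algebra k B]

/-- The ring hom `A ⊗[k] B → B` induced by a `k`-point `φ : A → k`. -/
noncomputable def evalLeft (φ : A →ₐ[k] k) : A ⊗[k] B →ₐ[k] B :=
  Algebra.TensorProduct.lift ((Algebra.ofId k B).comp φ) (AlgHom.id k B) (fun _ _ => Commute.all _ _)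

@[simp] theorem evalLeft_tmul (φ : A →ₐ[k] k) (a : A) (b : B) :
    evalLeft φ (a ⊗ₜ[k] b) = φ a • b := by
  simp [evalLeft, Algebra.smul_def]

theorem evalLeft_smul (φ : A →ₐ[k] k) (a : A) (z : A ⊗[k] B) :
    evalLeft φ (a • z) = φ a • evalLeft φ z := by
  induction z using TensorProduct.induction_on with
  | zero => simp
  | tmul x y => rw [TensorProduct.smul_tmul', evalLeft_tmul, evalLeft_tmul, smul_eq_mul, map_mul,
      mul_smul]
  | add x y hx hy => rw [smul_add, map_add, map_add, hx, hy, smul_add]

/-- In terms of the `A`-basis `1 ⊗ b i` of `A ⊗[k] B`: if `evalLeft φ z = 0` then all coordinates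
of `z` are killed by `φ`. -/
theorem evalLeft_eq_zero_iff {ι : Type*} (b : Module.Basis ι k B) (φ : A →ₐ[k] k)
    (z : A ⊗[k] B) :
    evalLeft φ z = 0 ↔ ∀ i, φ ((Algebra.TensorProduct.basis A b).repr z i) = 0 := by
  classical
  have hz : z = ((Algebra.TensorProduct.basis A b).repr z).sum
      (fun i c => c • (Algebra.TensorProduct.basis A b) i) :=
    ((Algebra.TensorProduct.basis A b).linearCombination_repr z).symm
  have h1 : evalLeft φ z = ((Algebra.TensorProduct.basis A b).repr z).sum
      (fun i c => φ c • b i) := by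
    conv_lhs => rw [hz]
    rw [Finsupp.sum, map_sum]
    refine Finset.sum_congr rfl ?_
    intro i _
    rw [evalLeft_smul, Algebra.TensorProduct.basis_apply, evalLeft_tmul, map_one, one_smul]
  rw [h1]
  constructor
  · intro h i
    have hli := b.linearIndependent
    rw [linearIndependent_iff'] at hli
    by_cases hi : i ∈ ((Algebra.TensorProduct.basis A b).repr z).support
    · exact hli _ (fun i => φ ((Algebra.TensorProduct.basis A b).repr z i)) h i hi
    · rw [Finsupp.notMem_support_iff] at hi
      rw [hi, map_zero]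
  · intro h
    rw [Finsupp.sum]
    refine Finset.sum_eq_zero ?_
    intro i _
    rw [h i, zero_smul]

end

/-- Finite type case. -/
theorem noZeroDivisors_tensorProduct_of_finiteType {k A B : Type*} [Field k] [IsAlgClosed k]
    [CommRing A] [IsDomain A] [Algebra k A] [Algebra.FiniteType k A]
    [CommRing B] [IsDomain B] [Algebra k B] :
    NoZeroDivisors (A ⊗[k] B) := by
  classical
  refine ⟨?_⟩
  intro x y hxy
  by_contra hcon
  push Not at hcon
  obtain ⟨hx, hy⟩ := hcon
  let b := Module.Free.chooseBasis k B
  let T := Algebra.TensorProduct.basis A b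
  have hx' : T.repr x ≠ 0 := fun h => hx (by simpa using congrArg T.repr.symm h)
  have hy' : T.repr y ≠ 0 := fun h => hy (by simpa using congrArg T.repr.symm h)
  obtain ⟨i₀, hi₀⟩ := Finsupp.ne_iff.mp hx'
  obtain ⟨i₁, hi₁⟩ := Finsupp.ne_iff.mp hy'
  simp only [Finsupp.coe_zero, Pi.zero_apply] at hi₀ hi₁
  have ha : T.repr x i₀ * T.repr y i₁ ≠ 0 := mul_ne_zero hi₀ hi₁
  obtain ⟨φ, hφ⟩ := exists_algHom_ne_zero (k := k) ha
  rw [map_mul] at hφ
  have h0 : evalLeft (B := B) φ x * evalLeft φ y = 0 := by
    rw [← map_mul, hxy, map_zero]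
  rcases mul_eq_zero.mp h0 with h | h
  · exact hφ (by rw [(evalLeft_eq_zero_iff b φ x).mp h i₀, zero_mul])
  · exact hφ (by rw [(evalLeft_eq_zero_iff b φ y).mp h i₁, mul_zero])

/-- **Tensor products of domains over an algebraically closed field have no zero divisors.** -/
theorem noZeroDivisors_tensorProduct {k A B : Type*} [Field k] [IsAlgClosed k]
    [CommRing A] [IsDomain A] [Algebra k A] [CommRing B] [IsDomain B] [Algebra k B] :
    NoZeroDivisors (A ⊗[k] B) := by
  classical
  refine ⟨?_⟩
  intro x y hxy
  obtain ⟨M', hM', hsub⟩ :=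
    TensorProduct.exists_finite_submodule_left_of_setFinite ({x, y} : Set (A ⊗[k] B))
      (Set.toFinite _)
  obtain ⟨S, hS⟩ := (Module.Finite.iff_fg.mp hM')
  let A' : Subalgebra k A := Algebra.adjoin k (S : Set A)
  have hA'fg : A'.FG := ⟨S, rfl⟩
  have hft : Algebra.FiniteType k A' := (Subalgebra.fg_iff_finiteType A').mp hA'fg
  have hle : M' ≤ Subalgebra.toSubmodule A' := by
    rw [← hS, Submodule.span_le]
    exact Algebra.subset_adjoin
  let ι : A' ⊗[k] B →ₐ[k] A ⊗[k] B := Algebra.TensorProduct.map A'.val (AlgHom.id k B)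
  have hι_inj : Function.Injective ι := by
    have h1 : Function.Injective (A'.val.toLinearMap.rTensor B) :=
      Module.Flat.rTensor_preserves_injective_linearMap _ Subtype.val_injective
    intro u v huv
    apply h1
    have h2 : ∀ w : A' ⊗[k] B, ι w = A'.val.toLinearMap.rTensor B w := by
      intro w
      induction w using TensorProduct.induction_on with
      | zero => simp
      | tmul a b => simp [ι]
      | add a b ha hb => rw [map_add, map_add, ha, hb]
    rw [← h2, ← h2, huv]
  have hgen : ∀ w : M' ⊗[k] B,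
      ι ((Submodule.inclusion hle).rTensor B w) = M'.subtype.rTensor B w := by
    intro w
    induction w using TensorProduct.induction_on with
    | zero => simp
    | tmul a b => simp [ι]
    | add a b ha hb => rw [map_add, map_add, map_add, ha, hb]
  have hrange : ∀ z ∈ ({x, y} : Set (A ⊗[k] B)), ∃ z' : A' ⊗[k] B, ι z' = z := by
    intro z hz
    obtain ⟨w, hw⟩ := hsub hz
    exact ⟨(Submodule.inclusion hle).rTensor B w, (hgen w).trans hw⟩
  obtain ⟨x', hx'⟩ := hrange x (by simp)
  obtain ⟨y', hy'⟩ := hrange y (by simp)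
  have hxy' : x' * y' = 0 := by
    apply hι_inj
    rw [map_mul, hx', hy', hxy, map_zero]
  have := noZeroDivisors_tensorProduct_of_finiteType (k := k) (A := A') (B := B)
  rcases mul_eq_zero.mp hxy' with h | h
  · left; rw [← hx', h, map_zero]
  · right; rw [← hy', h, map_zero]

/-- **Tensor products of domains over an algebraically closed field are domains.** -/
theorem isDomain_tensorProduct {k A B : Type*} [Field k] [IsAlgClosed k]
    [CommRing A] [IsDomain A] [Algebra k A] [CommRing B] [IsDomain B] [Algebra k B] :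
    IsDomain (A ⊗[k] B) := by
  have h1 := noZeroDivisors_tensorProduct (k := k) (A := A) (B := B)
  have h2 : Nontrivial (A ⊗[k] B) :=
    Algebra.TensorProduct.nontrivial_of_algebraMap_injective_of_isDomain k A B
      (algebraMap k A).injective (algebraMap k B).injective
  exact NoZeroDivisors.to_isDomain _

/-- Field-extension form used in block CURVE (C2): `K ⊗[k] B` is a domain. -/
theorem isDomain_field_tensorProduct {k K B : Type*} [Field k] [IsAlgClosed k]
    [Field K] [Algebra k K] [CommRing B] [IsDomain B] [Algebra k B] :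
    IsDomain (K ⊗[k] B) :=
  isDomain_tensorProduct

end Fermat.Agent.S25.H207
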