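import Mathlib
import Fermat.Agent.S25.H207.TensorDomain
import Fermat.Agent.S25.H207.Dedekind

/-!
# Block CURVE, leaf A3: base change of an affine smooth curve to a field extension is Dedekind

`k` algebraically closed, `B` a finitely generated `k`-algebra which is a domain and locally
standard smooth of relative dimension `1`, `K` an arbitrary field extension of `k`.  Then
`K ⊗[k] B` is a Dedekind domain and not a field.  (Same statements as the frozen skeleton
`Fermat/Agent/S25/Curve/Alg/BaseChange.lean` of the squad board.)

Proof: for the algebraic closure `Kbar` of `K` the ring `Kbar ⊗[k] B` is Dedekind by leaf A2, and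
`K ⊗[k] B → (K ⊗[k] B) ⊗[K] Kbar ≃ Kbar ⊗[k] B` is faithfully flat and integral; Dedekind-ness
descends along such maps.
-/

set_option autoImplicit false

universe u

open TensorProduct

namespace Fermat.Agent.S25.H207

section Descent

variable (R S : Type*) [CommRing R] [CommRing S] [Algebra R S]

/-- Divisibility descends along a faithfully flat ring map. -/
theorem dvd_of_algebraMap_dvd_of_faithfullyFlat [Module.FaithfullyFlat R S] {a b : R}
    (h : algebraMap R S b ∣ algebraMap R S a) : b ∣ a := by
  have h1 : a ∈ Ideal.comap (algebraMap R S) (Ideal.map (algebraMap R S) (Ideal.span {b})) := by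
    rw [Ideal.mem_comap, Ideal.map_span, Set.image_singleton]
    exact Ideal.mem_span_singleton.mpr h
  rw [Ideal.comap_map_eq_self_of_faithfullyFlat] at h1
  exact Ideal.mem_span_singleton.mp h1

/-- Dimension `≤ 1` descends along an injective integral ring map. -/
theorem dimensionLEOne_of_isIntegral [IsDomain S] [Algebra.IsIntegral R S]
    [Ring.DimensionLEOne S] (hinj : Function.Injective (algebraMap R S)) :
    Ring.DimensionLEOne R := by
  refine ⟨fun {p} hp0 hp => ?_⟩
  haveI := hp
  obtain ⟨Q, -, hQ, hQp⟩ := Ideal.exists_ideal_over_prime_of_isIntegral p (⊥ : Ideal S) (by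
    rw [← RingHom.ker_eq_comap_bot, (RingHom.injective_iff_ker_eq_bot _).mp hinj]
    exact bot_le)
  have hQ0 : Q ≠ ⊥ := by
    rintro rfl
    apply hp0
    rw [← hQp, ← RingHom.ker_eq_comap_bot, (RingHom.injective_iff_ker_eq_bot _).mp hinj]
  haveI hQmax : Q.IsMaximal := hQ.isMaximal hQ0
  rw [← hQp]
  exact Ideal.isMaximal_comap_of_isIntegral_of_isMaximal Q

/-- Integral closedness descends along a faithfully flat ring map of domains. -/
theorem isIntegrallyClosed_of_faithfullyFlat [IsDomain R] [IsDomain S]
    [Module.FaithfullyFlat R S] [IsIntegrallyClosed S] : IsIntegrallyClosed R := by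
  have hinjRS : Function.Injective (algebraMap R S) := FaithfulSMul.algebraMap_injective R S
  have hinjSL : Function.Injective (algebraMap S (FractionRing S)) :=
    IsFractionRing.injective S (FractionRing S)
  have hinj : Function.Injective (Algebra.ofId R (FractionRing S)) := by
    intro a b hab
    apply hinjRS
    apply hinjSL
    have h1 : ∀ c : R, Algebra.ofId R (FractionRing S) c
        = algebraMap S (FractionRing S) (algebraMap R S c) := fun c =>
      IsScalarTower.algebraMap_apply R S (FractionRing S) c
    rw [← h1, ← h1]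
    exact hab
  let f : FractionRing R →ₐ[R] FractionRing S := IsFractionRing.liftAlgHom hinj
  rw [isIntegrallyClosed_iff (FractionRing R)]
  intro x hx
  have hx' : IsIntegral S (f x) := (hx.map f).tower_top
  obtain ⟨s, hs⟩ := IsIntegrallyClosed.isIntegral_iff.mp hx'
  obtain ⟨a, b, hb, rfl⟩ := IsFractionRing.div_surjective R x
  have hb0 : b ≠ 0 := nonZeroDivisors.ne_zero hb
  have hbK : algebraMap R (FractionRing R) b ≠ 0 := by
    intro h
    exact hb0 ((IsFractionRing.injective R (FractionRing R)) (by rw [h, map_zero]))
  have hfa : ∀ c : R, f (algebraMap R (FractionRing R) c)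
      = algebraMap S (FractionRing S) (algebraMap R S c) := by
    intro c
    rw [AlgHom.commutes]
    exact IsScalarTower.algebraMap_apply R S (FractionRing S) c
  have hbL : algebraMap S (FractionRing S) (algebraMap R S b) ≠ 0 := by
    intro h
    exact hb0 (hinjRS (hinjSL (by rw [h, map_zero, map_zero])))
  -- `s * b = a` in `S`
  have hsb : algebraMap R S b * s = algebraMap R S a := by
    apply hinjSL
    rw [map_mul, hs, map_div₀, hfa, hfa]
    field_simp
  have hdvd : b ∣ a := dvd_of_algebraMap_dvd_of_faithfullyFlat R S ⟨s, hsb.symm⟩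
  obtain ⟨c, rfl⟩ := hdvd
  refine ⟨c, ?_⟩
  rw [map_mul]
  field_simp

/-- **Descent of the Dedekind property** along a faithfully flat integral extension. -/
theorem isDedekindDomain_of_faithfullyFlat_of_isIntegral [IsDomain R] [IsNoetherianRing R]
    [IsDomain S] [Module.FaithfullyFlat R S] [Algebra.IsIntegral R S]
    [Ring.DimensionLEOne S] [IsIntegrallyClosed S] : IsDedekindDomain R := by
  have hinjRS : Function.Injective (algebraMap R S) := FaithfulSMul.algebraMap_injective R S
  haveI : Ring.DimensionLEOne R := dimensionLEOne_of_isIntegral R S hinjRS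
  haveI : IsIntegrallyClosed R := isIntegrallyClosed_of_faithfullyFlat R S
  exact { }

end Descent

section BaseChange

variable {k B : Type u} [Field k] [IsAlgClosed k] [CommRing B] [IsDomain B] [Algebra k B]
  [Algebra.FiniteType k B]

/-- `Kbar ⊗[k] B` is Dedekind and not a field when `Kbar` is algebraically closed. -/
theorem isDedekindDomain_and_not_isField_tensor_of_isAlgClosed
    (h : RingHom.Locally (RingHom.IsStandardSmoothOfRelativeDimension 1) (algebraMap k B))
    (L : Type u) [Field L] [IsAlgClosed L] [Algebra k L] :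
    IsDedekindDomain (L ⊗[k] B) ∧ ¬ IsField (L ⊗[k] B) := by
  haveI : IsDomain (L ⊗[k] B) := isDomain_tensorProduct
  have hloc : RingHom.Locally (RingHom.IsStandardSmoothOfRelativeDimension 1)
      (algebraMap L (L ⊗[k] B)) := by
    have hst := RingHom.locally_isStableUnderBaseChange
      (RingHom.isStandardSmoothOfRelativeDimension_respectsIso (n := 1))
      (RingHom.isStandardSmoothOfRelativeDimension_isStableUnderBaseChange 1)
    letI : Algebra B (L ⊗[k] B) := Algebra.TensorProduct.rightAlgebra
    haveI : IsScalarTower k B (L ⊗[k] B) := Algebra.TensorProduct.right_isScalarTower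
    haveI : Algebra.IsPushout k B L (L ⊗[k] B) := TensorProduct.isPushout'
    exact hst k B L (L ⊗[k] B) h
  exact ⟨isDedekindDomain_of_locally_isStandardSmooth hloc,
    not_isField_of_locally_isStandardSmooth hloc⟩

end BaseChange

section Main

variable {k B : Type u} [Field k] [IsAlgClosed k] [CommRing B] [IsDomain B] [Algebra k B]
  [Algebra.FiniteType k B]

/-- The ring isomorphism `(K ⊗[k] B) ⊗[K] Kbar ≃+* Kbar ⊗[k] B`. -/
noncomputable def tensorClosureEquiv (k B : Type u) [Field k] [CommRing B] [Algebra k B]
    (K : Type u) [Field K] [Algebra k K] :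
    (K ⊗[k] B) ⊗[K] (AlgebraicClosure K) ≃+* (AlgebraicClosure K) ⊗[k] B :=
  ((Algebra.TensorProduct.comm K (K ⊗[k] B) (AlgebraicClosure K)).toRingEquiv).trans
    (Algebra.TensorProduct.cancelBaseChange k K K (AlgebraicClosure K) B).toRingEquiv

/-- Both statements of leaf A3. -/
theorem isDedekindDomain_and_not_isField_tensorProduct
    (h : RingHom.Locally (RingHom.IsStandardSmoothOfRelativeDimension 1) (algebraMap k B))
    (K : Type u) [Field K] [Algebra k K] :
    IsDedekindDomain (K ⊗[k] B) ∧ ¬ IsField (K ⊗[k] B) := by
  obtain ⟨hD, hnf⟩ := isDedekindDomain_and_not_isField_tensor_of_isAlgClosed h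
    (AlgebraicClosure K)
  haveI : IsDomain (K ⊗[k] B) := isDomain_tensorProduct
  haveI : IsNoetherianRing (K ⊗[k] B) := Algebra.FiniteType.isNoetherianRing K (K ⊗[k] B)
  let e := tensorClosureEquiv k B K
  haveI hSdom : IsDomain ((K ⊗[k] B) ⊗[K] (AlgebraicClosure K)) :=
    e.toMulEquiv.isDomain ((AlgebraicClosure K) ⊗[k] B)
  haveI hSdim : Ring.DimensionLEOne ((K ⊗[k] B) ⊗[K] (AlgebraicClosure K)) :=
    Ring.DimensionLEOne.of_ringEquiv e
  haveI hSic : IsIntegrallyClosed ((K ⊗[k] B) ⊗[K] (AlgebraicClosure K)) :=
    IsIntegrallyClosed.of_equiv e.symm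
  refine ⟨isDedekindDomain_of_faithfullyFlat_of_isIntegral (K ⊗[k] B)
    ((K ⊗[k] B) ⊗[K] (AlgebraicClosure K)), ?_⟩
  intro hf
  have hSf : IsField ((K ⊗[k] B) ⊗[K] (AlgebraicClosure K)) :=
    isField_of_isIntegral_of_isField' hf
  exact hnf (MulEquiv.isField hSf e.symm.toMulEquiv)

end Main

/-- **A3a.** (frozen statement of the squad skeleton `Curve/Alg/BaseChange.lean`) -/
theorem isDedekindDomain_tensorProduct {k B : Type u} [Field k] [IsAlgClosed k]
    [CommRing B] [IsDomain B] [Algebra k B] [Algebra.FiniteType k B]
    (h : RingHom.Locally (RingHom.IsStandardSmoothOfRelativeDimension 1) (algebraMap k B))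
    (K : Type u) [Field K] [Algebra k K] : IsDedekindDomain (K ⊗[k] B) :=
  (isDedekindDomain_and_not_isField_tensorProduct h K).1

/-- **A3b.** (frozen statement of the squad skeleton `Curve/Alg/BaseChange.lean`) -/
theorem not_isField_tensorProduct {k B : Type u} [Field k] [IsAlgClosed k]
    [CommRing B] [IsDomain B] [Algebra k B] [Algebra.FiniteType k B]
    (h : RingHom.Locally (RingHom.IsStandardSmoothOfRelativeDimension 1) (algebraMap k B))
    (K : Type u) [Field K] [Algebra k K] : ¬ IsField (K ⊗[k] B) :=
  (isDedekindDomain_and_not_isField_tensorProduct h K).2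

end Fermat.Agent.S25.H207
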