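import Mathlib
import Fermat.Agent.S25.H207.TensorDomain
import Fermat.Agent.S25.H207.SmoothDVR
import Fermat.Agent.S25.H207.Dedekind
import Fermat.Agent.S25.H207.BaseChange

/-!
# Dedekind property from the `IsCurveChart` hypotheses

The frozen algebraic interface `IsCurveChart` of row S25 does not contain the hypothesis
"locally standard smooth of relative dimension one"; it contains instead
`Module.Invertible B Ω[B⁄k]` (and smoothness).  This file shows that for a finitely generated
domain `B` over an algebraically closed field `k` the invertibility of `Ω[B⁄k]` alone implies: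

* every localisation of `B` at a maximal ideal is a discrete valuation ring;
* `B` is a Dedekind domain and not a field;
* for every field extension `K` of `k`, `K ⊗[k] B` is a Dedekind domain and not a field, and
  `Ω[K ⊗[k] B⁄K]` is an invertible `K ⊗[k] B`-module.
-/

set_option autoImplicit false

universe u

open TensorProduct

namespace Fermat.Agent.S25.H207

section InvertibleOmega

/-- `(B/m) ⊗ Ω[B/k]` is generated by one element when `Ω[B/k]` is invertible. -/
theorem exists_generator_tensor_of_invertible (k : Type*) {B : Type*} [Field k]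
    [CommRing B] [Algebra k B] [Module.Invertible B Ω[B⁄k]] (m : Ideal B) [hm : m.IsMaximal] :
    ∃ w₀ : (B ⧸ m) ⊗[B] Ω[B⁄k], ∀ w : (B ⧸ m) ⊗[B] Ω[B⁄k], ∃ c : B, c • w₀ = w := by
  letI := Ideal.Quotient.field m
  haveI hinv : Module.Invertible (B ⧸ m) ((B ⧸ m) ⊗[B] Ω[B⁄k]) := inferInstance
  have hrank : Module.rank (B ⧸ m) ((B ⧸ m) ⊗[B] Ω[B⁄k]) = 1 :=
    Module.Invertible.rank_eq_one (B ⧸ m) ((B ⧸ m) ⊗[B] Ω[B⁄k])
  obtain ⟨w₀, -, hw₀⟩ := rank_eq_one_iff.mp hrank
  refine ⟨w₀, fun w => ?_⟩
  obtain ⟨r, hr⟩ := hw₀ w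
  obtain ⟨c, rfl⟩ := Ideal.Quotient.mk_surjective r
  refine ⟨c, ?_⟩
  rw [← hr]
  exact (algebraMap_smul (B ⧸ m) c w₀).symm

/-- Cyclicity of the cotangent space from a generator of `(B/m) ⊗ Ω`. -/
theorem exists_le_span_sup_sq_of_generator (k : Type*) {B : Type*} [Field k] [IsAlgClosed k]
    [CommRing B] [Algebra k B] [Algebra.FiniteType k B] (m : Ideal B) [hm : m.IsMaximal]
    (hgen : ∃ w₀ : (B ⧸ m) ⊗[B] Ω[B⁄k], ∀ w : (B ⧸ m) ⊗[B] Ω[B⁄k], ∃ c : B, c • w₀ = w) :
    ∃ t ∈ m, m ≤ Ideal.span {t} ⊔ m ^ 2 := by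
  classical
  have hker : RingHom.ker (algebraMap B (B ⧸ m)) = m := Ideal.mk_ker
  set I := RingHom.ker (algebraMap B (B ⧸ m)) with hI
  have hinj : Function.Injective (KaehlerDifferential.kerCotangentToTensor k B (B ⧸ m)) :=
    kerCotangentToTensor_injective k m
  obtain ⟨w₀, hw₀⟩ := hgen
  have hkill : ∀ (z : B), z ∈ m → ∀ w : (B ⧸ m) ⊗[B] Ω[B⁄k], z • w = 0 := by
    intro z hz w
    induction w using TensorProduct.induction_on with
    | zero => simp
    | tmul x y =>
      rw [TensorProduct.smul_tmul']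
      have : z • x = 0 := by
        rw [Algebra.smul_def]
        have : algebraMap B (B ⧸ m) z = 0 := Ideal.Quotient.eq_zero_iff_mem.mpr hz
        rw [this, zero_mul]
      rw [this, TensorProduct.zero_tmul]
    | add x y hx hy => rw [smul_add, hx, hy, add_zero]
  -- the cotangent space is cyclic
  have hcyc : ∃ u₀ : I.Cotangent, ∀ v : I.Cotangent, ∃ c : B, c • u₀ = v := by
    by_cases hall : ∀ v : I.Cotangent, v = 0
    · exact ⟨0, fun v => ⟨0, by rw [hall v]; simp⟩⟩
    · push Not at hall
      obtain ⟨u, hu⟩ := hall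
      refine ⟨u, fun v => ?_⟩
      set φ := KaehlerDifferential.kerCotangentToTensor k B (B ⧸ m) with hφ
      obtain ⟨a, ha⟩ := hw₀ (φ u)
      obtain ⟨b, hb⟩ := hw₀ (φ v)
      -- `a ∉ m`, since otherwise `φ u = 0`
      have ha_notin : a ∉ m := by
        intro ham
        apply hu
        apply hinj
        rw [map_zero, ← ha]
        exact hkill a ham w₀
      -- invert `a` modulo `m`
      obtain ⟨a', ha'⟩ : ∃ a' : B, a' * a - 1 ∈ m := by
        obtain ⟨y, hy⟩ := Ideal.IsMaximal.exists_inv hm ha_notin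
        obtain ⟨i, hi, hyi⟩ := hy
        refine ⟨y, ?_⟩
        have : y * a - 1 = -i := by linear_combination hyi
        rw [this]
        exact neg_mem hi
      refine ⟨b * a', ?_⟩
      apply hinj
      rw [map_smul, ← ha, ← hb, smul_smul]
      have h1 : (b * a' * a) • w₀ = b • w₀ + (b * (a' * a - 1)) • w₀ := by
        rw [← add_smul]
        congr 1
        ring
      rw [h1, hkill _ (Ideal.mul_mem_left _ _ ha'), add_zero]
  obtain ⟨u₀, hu₀⟩ := hcyc
  obtain ⟨t, rfl⟩ := I.toCotangent_surjective u₀
  refine ⟨t.1, hker ▸ t.2, ?_⟩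
  intro x hx
  have hxI : x ∈ I := hker.symm ▸ hx
  obtain ⟨c, hc⟩ := hu₀ (I.toCotangent ⟨x, hxI⟩)
  rw [← map_smul] at hc
  have h2 := (Ideal.toCotangent_eq I).mp hc
  have h3 : x = c * t.1 - ((c • t : I).1 - x) := by
    simp
  rw [h3]
  refine sub_mem (Ideal.mem_sup_left (Ideal.mem_span_singleton'.mpr ⟨c, rfl⟩)) ?_
  refine Ideal.mem_sup_right ?_
  have : m ^ 2 = I ^ 2 := by rw [hker]
  rw [this]
  exact h2

/-- A maximal ideal of `B` is nonzero (when `Ω[B/k]` is invertible and `B` is nontrivial). -/
theorem maximal_ne_bot_of_invertible (k : Type*) {B : Type*} [Field k] [IsAlgClosed k]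
    [CommRing B] [Algebra k B] [Algebra.FiniteType k B] [Module.Invertible B Ω[B⁄k]]
    (m : Ideal B) [hm : m.IsMaximal] : m ≠ ⊥ := by
  intro h0
  haveI : Nontrivial B := ⟨⟨0, 1, fun h => hm.ne_top ((Ideal.eq_top_iff_one m).mpr
    (h ▸ m.zero_mem))⟩⟩
  have hbij := algebraMap_quotient_bijective k m
  have hsurj : Function.Surjective (algebraMap k B) := by
    intro b
    obtain ⟨c, hc⟩ := hbij.2 (Ideal.Quotient.mk m b)
    refine ⟨c, ?_⟩
    have h1 : Ideal.Quotient.mk m (algebraMap k B c) = Ideal.Quotient.mk m b := by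
      rw [← hc]; rfl
    have h2 := (Ideal.Quotient.eq).mp h1
    rw [h0, Ideal.mem_bot, sub_eq_zero] at h2
    exact h2
  have hsub : Subsingleton Ω[B⁄k] := KaehlerDifferential.subsingleton_of_surjective k B hsurj
  -- an invertible module over a nontrivial ring is faithful, hence nontrivial
  have h01 : (0 : B) = 1 := by
    apply FaithfulSMul.eq_of_smul_eq_smul (α := Ω[B⁄k])
    intro ω
    exact Subsingleton.elim _ _
  exact zero_ne_one h01

/-- **The localisation at a maximal ideal is a DVR** (hypothesis: `Ω[B/k]` invertible). -/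
theorem isDiscreteValuationRing_of_invertible (k : Type*) {B : Type*} [Field k]
    [IsAlgClosed k] [CommRing B] [IsDomain B] [Algebra k B] [Algebra.FiniteType k B]
    [Module.Invertible B Ω[B⁄k]] (m : Ideal B) [hm : m.IsMaximal]
    (R : Type*) [CommRing R] [IsDomain R] [Algebra B R] [IsLocalization.AtPrime R m] :
    IsDiscreteValuationRing R := by
  have hBn : IsNoetherianRing B := Algebra.FiniteType.isNoetherianRing k B
  have hRn : IsNoetherianRing R := IsLocalization.isNoetherianRing m.primeCompl R hBn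
  have hRl : IsLocalRing R := IsLocalization.AtPrime.isLocalRing R m
  have hinjBR : Function.Injective (algebraMap B R) :=
    IsLocalization.injective R (Ideal.primeCompl_le_nonZeroDivisors m)
  have hmax : Ideal.map (algebraMap B R) m = IsLocalRing.maximalIdeal R :=
    IsLocalization.AtPrime.map_eq_maximalIdeal m R
  have hnf : ¬ IsField R := by
    intro hf
    have h0 : IsLocalRing.maximalIdeal R = ⊥ := IsLocalRing.isField_iff_maximalIdeal_eq.mp hf
    rw [← hmax, Ideal.map_eq_bot_iff_of_injective hinjBR] at h0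
    exact maximal_ne_bot_of_invertible k m h0
  obtain ⟨t, htm, hle⟩ := exists_le_span_sup_sq_of_generator k m
    (exists_generator_tensor_of_invertible k m)
  have hprinc : (IsLocalRing.maximalIdeal R).IsPrincipal := by
    refine ⟨⟨algebraMap B R t, ?_⟩⟩
    apply le_antisymm
    · have hfg : (IsLocalRing.maximalIdeal R).FG := (isNoetherianRing_iff_ideal_fg R).mp hRn _
      have h1 : IsLocalRing.maximalIdeal R ≤
          Ideal.span {algebraMap B R t} ⊔
            (IsLocalRing.maximalIdeal R) • (IsLocalRing.maximalIdeal R) := by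
        rw [← hmax]
        have := Ideal.map_mono (f := algebraMap B R) hle
        rw [Ideal.map_sup, Ideal.map_span, Set.image_singleton, Ideal.map_pow, pow_two] at this
        exact this
      exact Submodule.le_of_le_smul_of_le_jacobson_bot hfg
        (IsLocalRing.maximalIdeal_le_jacobson ⊥) h1
    · rw [Ideal.submodule_span_eq, Ideal.span_le, Set.singleton_subset_iff, ← hmax]
      exact Ideal.mem_map_of_mem _ htm
  exact ((IsDiscreteValuationRing.TFAE R hnf).out 0 4).mpr hprinc

/-- **`B` is a Dedekind domain** (hypothesis: `Ω[B/k]` invertible). -/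
theorem isDedekindDomain_of_invertible_kaehler (k : Type*) {B : Type*} [Field k]
    [IsAlgClosed k] [CommRing B] [IsDomain B] [Algebra k B] [Algebra.FiniteType k B]
    [Module.Invertible B Ω[B⁄k]] : IsDedekindDomain B := by
  haveI hBn : IsNoetherianRing B := Algebra.FiniteType.isNoetherianRing k B
  exact isDedekindDomain_of_forall_maximal_dvr
    (fun m _ => isDiscreteValuationRing_of_invertible k m _)

/-- **`B` is not a field** (hypothesis: `Ω[B/k]` invertible). -/
theorem not_isField_of_invertible_kaehler (k : Type*) {B : Type*} [Field k]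
    [IsAlgClosed k] [CommRing B] [IsDomain B] [Algebra k B] [Algebra.FiniteType k B]
    [Module.Invertible B Ω[B⁄k]] : ¬ IsField B := by
  intro hf
  have hm : (⊥ : Ideal B).IsMaximal := by
    letI := hf.toField
    exact Ideal.bot_isMaximal
  exact maximal_ne_bot_of_invertible k (⊥ : Ideal B) rfl

end InvertibleOmega

section BaseChange

/-- Invertibility of the Kähler differentials is stable under base change. -/
theorem invertible_kaehler_tensor (k : Type*) (B : Type*) [CommRing k]
    [CommRing B] [Algebra k B] [Module.Invertible B Ω[B⁄k]]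
    (K : Type*) [CommRing K] [Algebra k K] :
    Module.Invertible (K ⊗[k] B) Ω[K ⊗[k] B⁄K] := by
  letI : Algebra B (K ⊗[k] B) := Algebra.TensorProduct.rightAlgebra
  haveI : IsScalarTower k B (K ⊗[k] B) := Algebra.TensorProduct.right_isScalarTower
  haveI : Algebra.IsPushout k K B (K ⊗[k] B) := TensorProduct.isPushout
  haveI : Module.Invertible (K ⊗[k] B) ((K ⊗[k] B) ⊗[B] Ω[B⁄k]) := inferInstance
  exact Module.Invertible.congr (KaehlerDifferential.tensorKaehlerEquiv k K B (K ⊗[k] B))

/-- **Curve chart rings stay Dedekind after every base field extension.** -/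
theorem isDedekindDomain_and_not_isField_tensor_of_invertible {k B : Type u} [Field k]
    [IsAlgClosed k] [CommRing B] [IsDomain B] [Algebra k B] [Algebra.FiniteType k B]
    [Module.Invertible B Ω[B⁄k]] (K : Type u) [Field K] [Algebra k K] :
    IsDedekindDomain (K ⊗[k] B) ∧ ¬ IsField (K ⊗[k] B) := by
  -- the algebraically closed case, applied to the algebraic closure of `K`
  haveI : IsDomain (AlgebraicClosure K ⊗[k] B) := isDomain_tensorProduct
  haveI : Module.Invertible (AlgebraicClosure K ⊗[k] B)
      Ω[AlgebraicClosure K ⊗[k] B⁄AlgebraicClosure K] :=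
    invertible_kaehler_tensor k B (AlgebraicClosure K)
  have hD : IsDedekindDomain (AlgebraicClosure K ⊗[k] B) :=
    isDedekindDomain_of_invertible_kaehler (AlgebraicClosure K)
  have hnf : ¬ IsField (AlgebraicClosure K ⊗[k] B) :=
    not_isField_of_invertible_kaehler (AlgebraicClosure K)
  haveI : IsDomain (K ⊗[k] B) := isDomain_tensorProduct
  haveI : IsNoetherianRing (K ⊗[k] B) := Algebra.FiniteType.isNoetherianRing K (K ⊗[k] B)
  let e := tensorClosureEquiv k B K
  haveI hSdom : IsDomain ((K ⊗[k] B) ⊗[K] (AlgebraicClosure K)) :=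
    e.toMulEquiv.isDomain ((AlgebraicClosure K) ⊗[k] B)
  haveI hSdim : Ring.DimensionLEOne ((K ⊗[k] B) ⊗[K] (AlgebraicClosure K)) :=
    Ring.DimensionLEOne.of_ringEquiv e
  haveI hSic : IsIntegrallyClosed ((K ⊗[k] B) ⊗[K] (AlgebraicClosure K)) :=
    IsIntegrallyClosed.of_equiv e.symm
  refine ⟨isDedekindDomain_of_faithfullyFlat_of_isIntegral (K ⊗[k] B)
    ((K ⊗[k] B) ⊗[K] (AlgebraicClosure K)), ?_⟩
  intro hf
  have hSf : IsField ((K ⊗[k] B) ⊗[K] (AlgebraicClosure K)) :=
    isField_of_isIntegral_of_isField' hf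
  exact hnf (MulEquiv.isField hSf e.symm.toMulEquiv)

end BaseChange

end Fermat.Agent.S25.H207
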