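import Mathlib
import Fermat.Agent.S25.DefsAlg
import Fermat.Agent.S25.H207.ChartDedekind

/-!
# Consequences of `IsCurveChart` (frozen `DefsAlg`): the chart rings are Dedekind

For a curve chart `(B₀, B₁, B₀₁, x, y, e)` over an algebraically closed field `k` and any field
extension `K` of `k`: `B₀`, `B₁` are finitely generated `k`-algebras, `K ⊗[k] Bᵢ` are Dedekind
domains which are not fields, `Ω[K ⊗[k] Bᵢ⁄K]` is invertible, `x ≠ 0`, `y ≠ 0`, `B₀₁` is a domain
and `K ⊗[k] B₀₁` is a domain.
-/

set_option autoImplicit false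

universe u

open TensorProduct

namespace Fermat.Agent.S25.H207

open Fermat.Agent.S25

/-- A ring which is finite over `k[X]` via `aeval x` is a finitely generated `k`-algebra. -/
theorem finiteType_of_finite_aeval {k B : Type*} [Field k] [CommRing B] [Algebra k B] (x : B)
    (h : (Polynomial.aeval x : Polynomial k →ₐ[k] B).Finite) : Algebra.FiniteType k B := by
  have h1 : ((Polynomial.aeval x : Polynomial k →ₐ[k] B).toRingHom).FiniteType :=
    RingHom.Finite.finiteType h
  have h2 : (algebraMap k (Polynomial k)).FiniteType :=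
    RingHom.finiteType_algebraMap.mpr inferInstance
  have h3 := RingHom.FiniteType.comp h1 h2
  have h4 : ((Polynomial.aeval x : Polynomial k →ₐ[k] B).toRingHom).comp
      (algebraMap k (Polynomial k)) = algebraMap k B := by
    ext a
    simp
  rw [h4] at h3
  exact RingHom.finiteType_algebraMap.mp h3

section Chart

variable {k : Type u} [Field k] [IsAlgClosed k] {B₀ B₁ B₀₁ : Type u} [CommRing B₀] [CommRing B₁]
  [CommRing B₀₁] [Algebra k B₀] [Algebra k B₁] [Algebra B₀ B₀₁] [Algebra B₁ B₀₁]
  {x : B₀} {y : B₁} {e : B₁ →ₐ[k] k}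

omit [IsAlgClosed k] in
theorem finiteType_chart₀ (h : IsCurveChart k B₀ B₁ B₀₁ x y e) : Algebra.FiniteType k B₀ :=
  finiteType_of_finite_aeval x h.finite₀

omit [IsAlgClosed k] in
theorem finiteType_chart₁ (h : IsCurveChart k B₀ B₁ B₀₁ x y e) : Algebra.FiniteType k B₁ :=
  finiteType_of_finite_aeval y h.finite₁

/-- `B₀` is a Dedekind domain. -/
theorem isDedekindDomain_chart₀ (h : IsCurveChart k B₀ B₁ B₀₁ x y e) : IsDedekindDomain B₀ := by
  haveI := h.isDomain₀
  haveI := finiteType_chart₀ h
  haveI := h.omega₀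
  exact isDedekindDomain_of_invertible_kaehler k

/-- `B₁` is a Dedekind domain. -/
theorem isDedekindDomain_chart₁ (h : IsCurveChart k B₀ B₁ B₀₁ x y e) : IsDedekindDomain B₁ := by
  haveI := h.isDomain₁
  haveI := finiteType_chart₁ h
  haveI := h.omega₁
  exact isDedekindDomain_of_invertible_kaehler k

/-- `B₀` is not a field. -/
theorem not_isField_chart₀ (h : IsCurveChart k B₀ B₁ B₀₁ x y e) : ¬ IsField B₀ := by
  haveI := h.isDomain₀
  haveI := finiteType_chart₀ h
  haveI := h.omega₀
  exact not_isField_of_invertible_kaehler k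

/-- `B₁` is not a field. -/
theorem not_isField_chart₁ (h : IsCurveChart k B₀ B₁ B₀₁ x y e) : ¬ IsField B₁ := by
  haveI := h.isDomain₁
  haveI := finiteType_chart₁ h
  haveI := h.omega₁
  exact not_isField_of_invertible_kaehler k

/-- `K ⊗[k] B₀` is a Dedekind domain for every field extension `K` of `k`. -/
theorem isDedekindDomain_tensor_chart₀ (h : IsCurveChart k B₀ B₁ B₀₁ x y e)
    (K : Type u) [Field K] [Algebra k K] : IsDedekindDomain (K ⊗[k] B₀) := by
  haveI := h.isDomain₀
  haveI := finiteType_chart₀ h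
  haveI := h.omega₀
  exact (isDedekindDomain_and_not_isField_tensor_of_invertible K).1

/-- `K ⊗[k] B₁` is a Dedekind domain for every field extension `K` of `k`. -/
theorem isDedekindDomain_tensor_chart₁ (h : IsCurveChart k B₀ B₁ B₀₁ x y e)
    (K : Type u) [Field K] [Algebra k K] : IsDedekindDomain (K ⊗[k] B₁) := by
  haveI := h.isDomain₁
  haveI := finiteType_chart₁ h
  haveI := h.omega₁
  exact (isDedekindDomain_and_not_isField_tensor_of_invertible K).1

/-- `K ⊗[k] B₀` is not a field. -/
theorem not_isField_tensor_chart₀ (h : IsCurveChart k B₀ B₁ B₀₁ x y e)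
    (K : Type u) [Field K] [Algebra k K] : ¬ IsField (K ⊗[k] B₀) := by
  haveI := h.isDomain₀
  haveI := finiteType_chart₀ h
  haveI := h.omega₀
  exact (isDedekindDomain_and_not_isField_tensor_of_invertible K).2

/-- `K ⊗[k] B₁` is not a field. -/
theorem not_isField_tensor_chart₁ (h : IsCurveChart k B₀ B₁ B₀₁ x y e)
    (K : Type u) [Field K] [Algebra k K] : ¬ IsField (K ⊗[k] B₁) := by
  haveI := h.isDomain₁
  haveI := finiteType_chart₁ h
  haveI := h.omega₁
  exact (isDedekindDomain_and_not_isField_tensor_of_invertible K).2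

omit [IsAlgClosed k] in
/-- `Ω[K ⊗[k] B₀⁄K]` is invertible. -/
theorem invertible_kaehler_tensor_chart₀ (h : IsCurveChart k B₀ B₁ B₀₁ x y e)
    (K : Type u) [CommRing K] [Algebra k K] : Module.Invertible (K ⊗[k] B₀) Ω[K ⊗[k] B₀⁄K] := by
  haveI := h.omega₀
  exact invertible_kaehler_tensor k B₀ K

omit [IsAlgClosed k] in
/-- `Ω[K ⊗[k] B₁⁄K]` is invertible. -/
theorem invertible_kaehler_tensor_chart₁ (h : IsCurveChart k B₀ B₁ B₀₁ x y e)
    (K : Type u) [CommRing K] [Algebra k K] : Module.Invertible (K ⊗[k] B₁) Ω[K ⊗[k] B₁⁄K] := by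
  haveI := h.omega₁
  exact invertible_kaehler_tensor k B₁ K

/-- `x ≠ 0`. -/
theorem x_ne_zero_chart (h : IsCurveChart k B₀ B₁ B₀₁ x y e) : x ≠ 0 := by
  rintro rfl
  haveI := h.isDomain₀
  -- `B₀` is finite over `k[X]` via `X ↦ 0`, hence finite over `k`, hence a field
  apply not_isField_chart₀ h
  have hfin : Module.Finite k B₀ := by
    have h0 := h.finite₀
    -- `aeval 0` factors through the evaluation `k[X] → k`
    letI alg : Algebra (Polynomial k) B₀ :=
      ((Polynomial.aeval (0 : B₀) : Polynomial k →ₐ[k] B₀).toRingHom).toAlgebra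
    haveI : Module.Finite (Polynomial k) B₀ := h0
    obtain ⟨s, hs⟩ := (Module.finite_def.mp this)
    refine Module.finite_def.mpr ⟨s, ?_⟩
    rw [eq_top_iff]
    intro b _
    have hb : b ∈ Submodule.span (Polynomial k) (s : Set B₀) := by rw [hs]; trivial
    refine Submodule.span_induction (p := fun b _ => b ∈ Submodule.span k (s : Set B₀))
      ?_ ?_ ?_ ?_ hb
    · intro z hz
      exact Submodule.subset_span hz
    · exact Submodule.zero_mem _
    · intro a b _ _ ha hb
      exact Submodule.add_mem _ ha hb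
    · intro p b _ hb
      have hp : p • b = (Polynomial.eval 0 p) • b := by
        change (Polynomial.aeval (0 : B₀) p) * b = _
        rw [Polynomial.aeval_def, Polynomial.eval₂_at_zero, Algebra.smul_def,
          Polynomial.coeff_zero_eq_eval_zero]
      rw [hp]
      exact Submodule.smul_mem _ _ hb
  exact (isField_of_isIntegral_of_isField' (R := k) (S := B₀) (Field.toIsField k))

/-- `y ≠ 0`. -/
theorem y_ne_zero_chart (h : IsCurveChart k B₀ B₁ B₀₁ x y e) : y ≠ 0 := by
  rintro rfl
  haveI := h.isDomain₁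
  apply not_isField_chart₁ h
  have hfin : Module.Finite k B₁ := by
    have h0 := h.finite₁
    letI alg : Algebra (Polynomial k) B₁ :=
      ((Polynomial.aeval (0 : B₁) : Polynomial k →ₐ[k] B₁).toRingHom).toAlgebra
    haveI : Module.Finite (Polynomial k) B₁ := h0
    obtain ⟨s, hs⟩ := (Module.finite_def.mp this)
    refine Module.finite_def.mpr ⟨s, ?_⟩
    rw [eq_top_iff]
    intro b _
    have hb : b ∈ Submodule.span (Polynomial k) (s : Set B₁) := by rw [hs]; trivial
    refine Submodule.span_induction (p := fun b _ => b ∈ Submodule.span k (s : Set B₁))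
      ?_ ?_ ?_ ?_ hb
    · intro z hz
      exact Submodule.subset_span hz
    · exact Submodule.zero_mem _
    · intro a b _ _ ha hb
      exact Submodule.add_mem _ ha hb
    · intro p b _ hb
      have hp : p • b = (Polynomial.eval 0 p) • b := by
        change (Polynomial.aeval (0 : B₁) p) * b = _
        rw [Polynomial.aeval_def, Polynomial.eval₂_at_zero, Algebra.smul_def,
          Polynomial.coeff_zero_eq_eval_zero]
      rw [hp]
      exact Submodule.smul_mem _ _ hb
  exact (isField_of_isIntegral_of_isField' (R := k) (S := B₁) (Field.toIsField k))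

/-- `B₀₁` is a domain. -/
theorem isDomain_chart₀₁ (h : IsCurveChart k B₀ B₁ B₀₁ x y e) : IsDomain B₀₁ := by
  haveI := h.isDomain₀
  haveI := h.away₀
  exact IsLocalization.isDomain_of_le_nonZeroDivisors B₀₁
    (powers_le_nonZeroDivisors_of_noZeroDivisors (x_ne_zero_chart h))

/-- `B₀₁` is a Dedekind domain. -/
theorem isDedekindDomain_chart₀₁ (h : IsCurveChart k B₀ B₁ B₀₁ x y e) :
    IsDedekindDomain B₀₁ := by
  haveI := h.isDomain₀
  haveI := h.away₀
  haveI := isDedekindDomain_chart₀ h
  haveI := isDomain_chart₀₁ h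
  exact IsLocalization.isDedekindDomain B₀
    (powers_le_nonZeroDivisors_of_noZeroDivisors (x_ne_zero_chart h)) B₀₁

/-- The restriction maps `Bᵢ → B₀₁` are injective. -/
theorem injective_algebraMap_chart₀ (h : IsCurveChart k B₀ B₁ B₀₁ x y e) :
    Function.Injective (algebraMap B₀ B₀₁) := by
  haveI := h.isDomain₀
  haveI := h.away₀
  exact IsLocalization.injective B₀₁
    (powers_le_nonZeroDivisors_of_noZeroDivisors (x_ne_zero_chart h))

theorem injective_algebraMap_chart₁ (h : IsCurveChart k B₀ B₁ B₀₁ x y e) :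
    Function.Injective (algebraMap B₁ B₀₁) := by
  haveI := h.isDomain₁
  haveI := h.away₁
  exact IsLocalization.injective B₀₁
    (powers_le_nonZeroDivisors_of_noZeroDivisors (y_ne_zero_chart h))

/-- `K ⊗[k] B₀₁` is a domain for every field extension `K` of `k`. -/
theorem isDomain_tensor_chart₀₁ [Algebra k B₀₁] (h : IsCurveChart k B₀ B₁ B₀₁ x y e)
    (K : Type u) [Field K] [Algebra k K] : IsDomain (K ⊗[k] B₀₁) := by
  haveI := isDomain_chart₀₁ h
  exact isDomain_tensorProduct

end Chart

end Fermat.Agent.S25.H207
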