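import Mathlib
import Fermat.Agent.S25.H207.Dedekind

/-!
# Block CURVE / CHART: smoothness and invertibility of the Kähler differentials

For a finitely generated domain `B` over an algebraically closed field `k` which is locally
standard smooth of relative dimension `1`:

* `B` is a smooth `k`-algebra (`smooth_of_locally_isStandardSmooth`, valid in general);
* `Ω[B⁄k]` is an invertible `B`-module (`invertible_kaehlerDifferential`).

These are exactly the fields `smooth₀`, `smooth₁`, `omega₀`, `omega₁` of `IsCurveChart`.
-/

set_option autoImplicit false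

universe u

open TensorProduct

namespace Fermat.Agent.S25.H207

/-- Locally standard smooth (of some relative dimension) implies smooth. -/
theorem smooth_of_locally_isStandardSmooth {k B : Type u} [CommRing k] [CommRing B] [Algebra k B]
    (n : ℕ) (h : RingHom.Locally (RingHom.IsStandardSmoothOfRelativeDimension n) (algebraMap k B)) :
    Algebra.Smooth k B := by
  rw [← RingHom.smooth_algebraMap, RingHom.smooth_iff_locally_isStandardSmooth]
  exact RingHom.locally_of_locally
    (fun {R S} _ _ f hf => RingHom.IsStandardSmoothOfRelativeDimension.isStandardSmooth n f hf) h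

/-- A nontrivial finitely generated module over a Dedekind domain which embeds into the fraction
field is invertible. -/
theorem invertible_of_injective_to_fractionField {R M F : Type*} [CommRing R] [IsDedekindDomain R]
    [AddCommGroup M] [Module R M] [Module.Finite R M] [Nontrivial M]
    [Field F] [Algebra R F] [IsFractionRing R F]
    (j : M →ₗ[R] F) (hj : Function.Injective j) : Module.Invertible R M := by
  classical
  have hfg : (LinearMap.range j).FG := by
    rw [LinearMap.range_eq_map]
    exact Submodule.FG.map _ (Module.finite_def.mp inferInstance)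
  have hfrac : IsFractional (nonZeroDivisors R) (LinearMap.range j) :=
    FractionalIdeal.isFractional_of_fg hfg
  let I : FractionalIdeal (nonZeroDivisors R) F := ⟨LinearMap.range j, hfrac⟩
  have hI : I ≠ 0 := by
    intro h0
    obtain ⟨m, hm⟩ := exists_ne (0 : M)
    have hmem : j m ∈ (I : Submodule R F) := ⟨m, rfl⟩
    rw [h0, FractionalIdeal.coe_zero, Submodule.mem_bot] at hmem
    exact hm (hj (by rw [hmem, map_zero]))
  have hmul : I * I⁻¹ = 1 := mul_inv_cancel₀ hI
  have hmul' : (I : Submodule R F) * ((I⁻¹ : FractionalIdeal (nonZeroDivisors R) F) :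
      Submodule R F) = 1 := by
    rw [← FractionalIdeal.coe_mul, hmul, FractionalIdeal.coe_one]
  haveI : FaithfulSMul R F := (faithfulSMul_iff_algebraMap_injective R F).mpr
    (IsFractionRing.injective R F)
  let u : (Submodule R F)ˣ := Units.mkOfMulEqOne _ _ hmul'
  haveI : Module.Invertible R (u : Submodule R F) := inferInstance
  have e : (u : Submodule R F) ≃ₗ[R] M := (LinearEquiv.ofInjective j hj).symm
  exact Module.Invertible.congr e

section Omega

variable {k B : Type u} [Field k] [IsAlgClosed k] [CommRing B] [IsDomain B] [Algebra k B]
  [Algebra.FiniteType k B]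

omit [IsAlgClosed k] [IsDomain B] [Algebra.FiniteType k B] in
/-- The `Locally` hypothesis in terms of the canonical algebra structure on `Localization.Away`. -/
theorem exists_cover_isStandardSmooth
    (h : RingHom.Locally (RingHom.IsStandardSmoothOfRelativeDimension 1) (algebraMap k B)) :
    ∃ s : Set B, Ideal.span s = ⊤ ∧
      ∀ t ∈ s, Algebra.IsStandardSmoothOfRelativeDimension 1 k (Localization.Away t) := by
  obtain ⟨s, hs, hP⟩ := h
  refine ⟨s, hs, fun t ht => ?_⟩
  have := hP t ht
  rw [← IsScalarTower.algebraMap_eq, RingHom.isStandardSmoothOfRelativeDimension_algebraMap]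
    at this
  exact this

/-- **`Ω[B⁄k]` is an invertible module.** -/
theorem invertible_kaehlerDifferential
    (h : RingHom.Locally (RingHom.IsStandardSmoothOfRelativeDimension 1) (algebraMap k B)) :
    Module.Invertible B Ω[B⁄k] := by
  haveI hD : IsDedekindDomain B := isDedekindDomain_of_locally_isStandardSmooth h
  haveI hsm : Algebra.Smooth k B := smooth_of_locally_isStandardSmooth 1 h
  haveI hproj : Module.Projective B Ω[B⁄k] := inferInstance
  haveI htf : Module.IsTorsionFree B Ω[B⁄k] := Module.Flat.isTorsionFree
  -- choose a chart
  obtain ⟨s, hs, hP⟩ := exists_cover_isStandardSmooth h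
  obtain ⟨t, hts, ht0⟩ : ∃ t ∈ s, t ≠ 0 := by
    by_contra hcon
    push Not at hcon
    have hle : Ideal.span s ≤ (⊥ : Ideal B) := by
      rw [Ideal.span_le]
      intro x hx
      simpa using hcon x hx
    rw [hs] at hle
    exact bot_ne_top (le_antisymm bot_le hle)
  haveI hdom : IsDomain (Localization.Away t) :=
    IsLocalization.isDomain_of_le_nonZeroDivisors (Localization.Away t)
      (powers_le_nonZeroDivisors_of_noZeroDivisors ht0)
  have hinjBt : Function.Injective (algebraMap B (Localization.Away t)) :=
    IsLocalization.injective _ (powers_le_nonZeroDivisors_of_noZeroDivisors ht0)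
  haveI hss : Algebra.IsStandardSmoothOfRelativeDimension 1 k (Localization.Away t) := hP t hts
  haveI hss' : Algebra.IsStandardSmooth k (Localization.Away t) :=
    Algebra.IsStandardSmoothOfRelativeDimension.isStandardSmooth 1
  haveI hfree : Module.Free (Localization.Away t) Ω[Localization.Away t⁄k] :=
    Algebra.IsStandardSmooth.free_kaehlerDifferential
  have hrank : Module.rank (Localization.Away t) Ω[Localization.Away t⁄k] = 1 := by
    have := Algebra.IsStandardSmoothOfRelativeDimension.rank_kaehlerDifferential
      (R := k) (S := Localization.Away t) 1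
    simpa using this
  have hrank' : Module.rank (Localization.Away t) Ω[Localization.Away t⁄k]
      = Module.rank (Localization.Away t) (Localization.Away t) := by
    rw [hrank, Module.rank_self]
  obtain ⟨e⟩ := nonempty_linearEquiv_of_rank_eq hrank'
  -- the localisation map on differentials
  let f : Ω[B⁄k] →ₗ[B] Ω[Localization.Away t⁄k] :=
    KaehlerDifferential.map k k B (Localization.Away t)
  haveI hloc : IsLocalizedModule (Submonoid.powers t) f :=
    KaehlerDifferential.isLocalizedModule_map k B (Localization.Away t) (Submonoid.powers t)
  have hpow0 : ∀ c : Submonoid.powers t, (c : B) ≠ 0 := by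
    rintro ⟨c, n, rfl⟩
    exact pow_ne_zero n ht0
  have hf_inj : Function.Injective f := by
    rw [injective_iff_map_eq_zero]
    intro ω hω
    obtain ⟨c, hc⟩ := (IsLocalizedModule.eq_zero_iff (Submonoid.powers t) f).mp hω
    have hc' : (c : B) • ω = 0 := hc
    exact (smul_eq_zero.mp hc').resolve_left (hpow0 c)
  -- `Ω` is nontrivial
  haveI hnt : Nontrivial Ω[B⁄k] := by
    obtain ⟨⟨x, c⟩, hx⟩ := IsLocalizedModule.surj (Submonoid.powers t) f (e.symm 1)
    refine ⟨⟨x, 0, ?_⟩⟩
    rintro rfl
    rw [map_zero] at hx
    have h1 : (c : B) • (e.symm 1) = 0 := hx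
    have h2 := congrArg e h1
    rw [map_zero, ← algebraMap_smul (Localization.Away t) (c : B) (e.symm 1), map_smul,
      e.apply_symm_apply, smul_eq_mul, mul_one] at h2
    exact hpow0 c (hinjBt (by rw [h2, map_zero]))
  -- the map to the fraction field
  have hunit : IsUnit (algebraMap B (FractionRing B) t) := by
    rw [isUnit_iff_ne_zero, Ne, map_eq_zero_iff _ (IsFractionRing.injective B (FractionRing B))]
    exact ht0
  let g : Localization.Away t →+* FractionRing B := IsLocalization.Away.lift t hunit
  have hg_comp : ∀ b : B, g (algebraMap B (Localization.Away t) b)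
      = algebraMap B (FractionRing B) b := fun b => IsLocalization.Away.lift_eq t hunit b
  have hg_inj : Function.Injective g := by
    rw [injective_iff_map_eq_zero]
    intro x hx
    obtain ⟨⟨b, c⟩, hbc⟩ := IsLocalization.surj (Submonoid.powers t) x
    have h1 := congrArg g hbc
    rw [map_mul, hx, zero_mul, hg_comp] at h1
    have hb0 : b = 0 := by
      apply IsFractionRing.injective B (FractionRing B)
      rw [← h1, map_zero]
    rw [hb0, map_zero] at hbc
    have hc0 : algebraMap B (Localization.Away t) (c : B) ≠ 0 := by
      intro h
      exact hpow0 c (hinjBt (by rw [h, map_zero]))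
    exact (mul_eq_zero.mp hbc).resolve_right hc0
  let gl : Localization.Away t →ₗ[B] FractionRing B :=
    { toFun := g
      map_add' := map_add g
      map_smul' := by
        intro b x
        rw [Algebra.smul_def, map_mul, hg_comp, RingHom.id_apply, Algebra.smul_def] }
  let j : Ω[B⁄k] →ₗ[B] FractionRing B :=
    gl ∘ₗ (e.toLinearMap.restrictScalars B) ∘ₗ f
  have hj : Function.Injective j := by
    intro a b hab
    apply hf_inj
    apply e.injective
    apply hg_inj
    exact hab
  exact invertible_of_injective_to_fractionField j hj

end Omega

end Fermat.Agent.S25.H207
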